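import Mathlib

/-!
# Uniformly first-order predicates over fields, and the Lefschetz principle

`IsPolyFun t`: the family of functions `t K : (α → K) → K` (one for every field `K`) is given by
one integral polynomial.
`IsFO P`: the family of predicates `P K : (α → K) → Prop` is given by one first-order formula in
the language of rings.

We prove closure properties of these two notions, and the Lefschetz transfer principle
`IsFO.transfer`: if a first-order sentence holds for (an) algebraically closed field of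
characteristic `p` for infinitely many `p`, then it holds in every algebraically closed field of
characteristic zero.
-/

open FirstOrder FirstOrder.Ring FirstOrder.Language

namespace Fermat.Agent.FO

universe u

variable {α β γ : Type}

/-- The family `t` is given by one integral polynomial. -/
def IsPolyFun (t : ∀ (K : Type u) [Field K], (α → K) → K) : Prop :=
  ∃ p : FreeCommRing α, ∀ (K : Type u) [Field K] (v : α → K), t K v = FreeCommRing.lift v p

/-- The family `P` is given by one first-order formula in the language of rings. -/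
def IsFO (P : ∀ (K : Type u) [Field K], (α → K) → Prop) : Prop :=
  ∃ φ : Language.ring.Formula α, ∀ (K : Type u) [Field K] [CompatibleRing K] (v : α → K),
    φ.Realize v ↔ P K v

namespace IsPolyFun

variable {t s : ∀ (K : Type u) [Field K], (α → K) → K}

lemma var (a : α) : IsPolyFun.{u} (fun _ _ v => v a) :=
  ⟨FreeCommRing.of a, fun K _ v => by simp⟩

lemma add (ht : IsPolyFun t) (hs : IsPolyFun s) : IsPolyFun (fun K _ v => t K v + s K v) := by
  obtain ⟨p, hp⟩ := ht
  obtain ⟨q, hq⟩ := hs
  exact ⟨p + q, fun K _ v => by beta_reduce; rw [map_add, hp, hq]⟩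

lemma mul (ht : IsPolyFun t) (hs : IsPolyFun s) : IsPolyFun (fun K _ v => t K v * s K v) := by
  obtain ⟨p, hp⟩ := ht
  obtain ⟨q, hq⟩ := hs
  exact ⟨p * q, fun K _ v => by beta_reduce; rw [map_mul, hp, hq]⟩

lemma neg (ht : IsPolyFun t) : IsPolyFun (fun K _ v => - t K v) := by
  obtain ⟨p, hp⟩ := ht
  exact ⟨-p, fun K _ v => by beta_reduce; rw [map_neg, hp]⟩

lemma sub (ht : IsPolyFun t) (hs : IsPolyFun s) : IsPolyFun (fun K _ v => t K v - s K v) := by
  obtain ⟨p, hp⟩ := ht
  obtain ⟨q, hq⟩ := hs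
  exact ⟨p - q, fun K _ v => by beta_reduce; rw [map_sub, hp, hq]⟩

lemma natCast (n : ℕ) : IsPolyFun.{u} (α := α) (fun _ _ _ => (n : _)) :=
  ⟨n, fun K _ v => by rw [map_natCast]⟩

lemma zero : IsPolyFun.{u} (α := α) (fun _ _ _ => 0) :=
  ⟨0, fun K _ v => by rw [map_zero]⟩

lemma one : IsPolyFun.{u} (α := α) (fun _ _ _ => 1) :=
  ⟨1, fun K _ v => by rw [map_one]⟩

lemma pow (ht : IsPolyFun t) (n : ℕ) : IsPolyFun (fun K _ v => (t K v) ^ n) := by
  obtain ⟨p, hp⟩ := ht
  exact ⟨p ^ n, fun K _ v => by beta_reduce; rw [map_pow, hp]⟩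

lemma sum {ι : Type*} (I : Finset ι) {t : ι → ∀ (K : Type u) [Field K], (α → K) → K}
    (ht : ∀ i ∈ I, IsPolyFun (t i)) : IsPolyFun (fun K _ v => ∑ i ∈ I, t i K v) := by
  classical
  induction I using Finset.induction_on with
  | empty => simpa using zero
  | insert a I ha ih =>
    simp only [Finset.sum_insert ha]
    exact (ht a (Finset.mem_insert_self a I)).add
      (ih fun i hi => ht i (Finset.mem_insert_of_mem hi))

lemma prod {ι : Type*} (I : Finset ι) {t : ι → ∀ (K : Type u) [Field K], (α → K) → K}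
    (ht : ∀ i ∈ I, IsPolyFun (t i)) : IsPolyFun (fun K _ v => ∏ i ∈ I, t i K v) := by
  classical
  induction I using Finset.induction_on with
  | empty => simpa using one
  | insert a I ha ih =>
    simp only [Finset.prod_insert ha]
    exact (ht a (Finset.mem_insert_self a I)).mul
      (ih fun i hi => ht i (Finset.mem_insert_of_mem hi))

/-- Substitution. -/
lemma subst (ht : IsPolyFun t) {w : α → ∀ (K : Type u) [Field K], (β → K) → K}
    (hw : ∀ a, IsPolyFun (w a)) : IsPolyFun (fun K _ v => t K (fun a => w a K v)) := by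
  obtain ⟨p, hp⟩ := ht
  choose q hq using hw
  refine ⟨FreeCommRing.lift q p, fun K _ v => ?_⟩
  beta_reduce
  rw [hp]
  have : (fun a => w a K v) = fun a => FreeCommRing.lift v (q a) := funext fun a => hq a K v
  rw [this]
  have h2 : (FreeCommRing.lift fun a => FreeCommRing.lift v (q a)) =
      (FreeCommRing.lift v).comp (FreeCommRing.lift q) := by
    ext a
    simp
  rw [h2]
  rfl

lemma comp (ht : IsPolyFun t) (f : α → β) : IsPolyFun (fun K _ (v : β → K) => t K (v ∘ f)) :=
  ht.subst (w := fun a K _ v => v (f a)) fun a => var (f a)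

lemma comp' (ht : IsPolyFun t) (f : α → β) :
    IsPolyFun (fun K _ (v : β → K) => t K (fun a => v (f a))) :=
  ht.comp f

end IsPolyFun

namespace IsFO

variable {P Q : ∀ (K : Type u) [Field K], (α → K) → Prop}

lemma congr (hP : IsFO P) (h : ∀ (K : Type u) [Field K] (v : α → K), Q K v ↔ P K v) :
    IsFO Q := by
  obtain ⟨φ, hφ⟩ := hP
  exact ⟨φ, fun K _ _ v => (hφ K v).trans (h K v).symm⟩

lemma eq {t s : ∀ (K : Type u) [Field K], (α → K) → K} (ht : IsPolyFun t) (hs : IsPolyFun s) :
    IsFO (fun K _ v => t K v = s K v) := by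
  obtain ⟨p, hp⟩ := ht
  obtain ⟨q, hq⟩ := hs
  refine ⟨Term.equal (termOfFreeCommRing p) (termOfFreeCommRing q), fun K _ _ v => ?_⟩
  beta_reduce
  rw [Formula.realize_equal, realize_termOfFreeCommRing, realize_termOfFreeCommRing, hp, hq]

lemma true : IsFO.{u} (α := α) (fun _ _ _ => True) :=
  ⟨⊤, fun K _ _ v => by simp⟩

lemma false : IsFO.{u} (α := α) (fun _ _ _ => False) :=
  ⟨⊥, fun K _ _ v => by simp⟩

lemma const (p : Prop) : IsFO.{u} (α := α) (fun _ _ _ => p) := by
  by_cases hp : p
  · exact true.congr fun K _ v => by simp [hp]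
  · exact false.congr fun K _ v => by simp [hp]

lemma not (hP : IsFO P) : IsFO (fun K _ v => ¬ P K v) := by
  obtain ⟨φ, hφ⟩ := hP
  exact ⟨∼φ, fun K _ _ v => by rw [Formula.realize_not, hφ K v]⟩

lemma and (hP : IsFO P) (hQ : IsFO Q) : IsFO (fun K _ v => P K v ∧ Q K v) := by
  obtain ⟨φ, hφ⟩ := hP
  obtain ⟨ψ, hψ⟩ := hQ
  exact ⟨φ ⊓ ψ, fun K _ _ v => by rw [Formula.realize_inf, hφ K v, hψ K v]⟩

lemma or (hP : IsFO P) (hQ : IsFO Q) : IsFO (fun K _ v => P K v ∨ Q K v) := by
  obtain ⟨φ, hφ⟩ := hP
  obtain ⟨ψ, hψ⟩ := hQ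
  exact ⟨φ ⊔ ψ, fun K _ _ v => by rw [Formula.realize_sup, hφ K v, hψ K v]⟩

lemma imp (hP : IsFO P) (hQ : IsFO Q) : IsFO (fun K _ v => P K v → Q K v) := by
  obtain ⟨φ, hφ⟩ := hP
  obtain ⟨ψ, hψ⟩ := hQ
  exact ⟨φ.imp ψ, fun K _ _ v => by rw [Formula.realize_imp, hφ K v, hψ K v]⟩

lemma iff (hP : IsFO P) (hQ : IsFO Q) : IsFO (fun K _ v => P K v ↔ Q K v) :=
  ((hP.imp hQ).and (hQ.imp hP)).congr fun K _ v => by tauto

lemma ne {t s : ∀ (K : Type u) [Field K], (α → K) → K} (ht : IsPolyFun t) (hs : IsPolyFun s) :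
    IsFO (fun K _ v => t K v ≠ s K v) := (eq ht hs).not

lemma forall_finite {ι : Type} [Finite ι] {P : ι → ∀ (K : Type u) [Field K], (α → K) → Prop}
    (hP : ∀ i, IsFO (P i)) : IsFO (fun K _ v => ∀ i, P i K v) := by
  choose φ hφ using hP
  refine ⟨Formula.iInf φ, fun K _ _ v => ?_⟩
  beta_reduce
  rw [Formula.realize_iInf]
  exact forall_congr' fun i => hφ i K v

lemma exists_finite {ι : Type} [Finite ι] {P : ι → ∀ (K : Type u) [Field K], (α → K) → Prop}
    (hP : ∀ i, IsFO (P i)) : IsFO (fun K _ v => ∃ i, P i K v) := by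
  choose φ hφ using hP
  refine ⟨Formula.iSup φ, fun K _ _ v => ?_⟩
  beta_reduce
  rw [Formula.realize_iSup]
  exact exists_congr fun i => hφ i K v

/-- Substitution of terms. -/
lemma subst (hP : IsFO P) {w : α → ∀ (K : Type u) [Field K], (β → K) → K}
    (hw : ∀ a, IsPolyFun (w a)) : IsFO (fun K _ v => P K (fun a => w a K v)) := by
  obtain ⟨φ, hφ⟩ := hP
  choose q hq using hw
  refine ⟨BoundedFormula.subst φ (fun a => termOfFreeCommRing (q a)), fun K _ _ v => ?_⟩
  beta_reduce
  rw [Formula.Realize, BoundedFormula.realize_subst]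
  rw [← hφ K, Formula.Realize]
  have : (fun a => (termOfFreeCommRing (q a)).realize v) = fun a => w a K v :=
    funext fun a => by rw [realize_termOfFreeCommRing, hq a K v]
  rw [this]

lemma comp (hP : IsFO P) (f : α → β) : IsFO (fun K _ (v : β → K) => P K (v ∘ f)) :=
  hP.subst (w := fun a K _ v => v (f a)) fun a => IsPolyFun.var (f a)

/-- Existential quantification over a finite vector. -/
lemma ex [Finite β] {R : ∀ (K : Type u) [Field K], (α → K) → (β → K) → Prop}
    (h : IsFO (fun K _ (v : α ⊕ β → K) => R K (fun a => v (Sum.inl a)) (fun b => v (Sum.inr b)))) :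
    IsFO (fun K _ v => ∃ w : β → K, R K v w) := by
  obtain ⟨φ, hφ⟩ := h
  refine ⟨Formula.iExs β φ, fun K _ _ v => ?_⟩
  beta_reduce
  rw [Formula.realize_iExs]
  refine exists_congr fun w => ?_
  rw [hφ K]
  rfl

/-- Universal quantification over a finite vector. -/
lemma all [Finite β] {R : ∀ (K : Type u) [Field K], (α → K) → (β → K) → Prop}
    (h : IsFO (fun K _ (v : α ⊕ β → K) => R K (fun a => v (Sum.inl a)) (fun b => v (Sum.inr b)))) :
    IsFO (fun K _ v => ∀ w : β → K, R K v w) := by
  obtain ⟨φ, hφ⟩ := h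
  refine ⟨Formula.iAlls β φ, fun K _ _ v => ?_⟩
  beta_reduce
  rw [Formula.realize_iAlls]
  refine forall_congr' fun w => ?_
  rw [hφ K]
  rfl

end IsFO

/-- **Lefschetz principle** for uniformly first-order predicates: if the sentence
`∀ v, P K v` holds for some algebraically closed field of characteristic `p`, for infinitely many
primes `p`, then it holds for every algebraically closed field of characteristic zero. -/
theorem IsFO.transfer [Finite α] {P : ∀ (K : Type u) [Field K], (α → K) → Prop} (hP : IsFO P)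
    (h : {p : Nat.Primes | ∃ (k : Type u) (_ : Field k), IsAlgClosed k ∧ CharP k p ∧
      ∀ v : α → k, P k v}.Infinite)
    (K : Type u) [Field K] [IsAlgClosed K] [CharZero K] (v : α → K) : P K v := by
  obtain ⟨φ, hφ⟩ := hP
  let ψ : Language.ring.Sentence := Formula.iAlls α (φ.relabel (Sum.inr : α → Empty ⊕ α))
  have hψ : ∀ (K : Type u) [Field K] [CompatibleRing K], K ⊨ ψ ↔ ∀ v : α → K, P K v := by
    intro K _ _
    rw [Sentence.Realize, Formula.realize_iAlls]
    refine forall_congr' fun w => ?_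
    rw [Formula.realize_relabel, ← hφ K]
    rfl
  have h0 : Theory.ACF 0 ⊨ᵇ ψ := by
    rw [Field.ACF_zero_realize_iff_infinite_ACF_prime_realize]
    refine h.mono ?_
    rintro p ⟨k, _, hk, hchar, hv⟩
    let := compatibleRingOfRing k
    have := (hψ k).mpr hv
    exact ((Field.ACF_isComplete (Or.inl p.2)).realize_sentence_iff ψ k).mp this
  let := compatibleRingOfRing K
  have : CharP K 0 := inferInstance
  have h1 : K ⊨ ψ := h0.realize_sentence K
  exact (hψ K).mp h1 v

end Fermat.Agent.FO
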