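import Mathlib
import Fermat.Agent.FO.Basic

/-!
# Uniformly first-order families of polynomials
-/

open Polynomial

namespace Fermat.Agent.FO

universe u

variable {α β : Type}

/-- A family of polynomials of bounded degree with coefficients given by integral polynomials. -/
def IsUPoly (f : ∀ (K : Type u) [Field K], (α → K) → K[X]) : Prop :=
  (∃ N : ℕ, ∀ (K : Type u) [Field K] (v : α → K), (f K v).natDegree ≤ N) ∧
    ∀ r, IsPolyFun (fun K _ v => (f K v).coeff r)

namespace IsUPoly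

variable {f g : ∀ (K : Type u) [Field K], (α → K) → K[X]}

lemma c {t : ∀ (K : Type u) [Field K], (α → K) → K} (ht : IsPolyFun t) :
    IsUPoly (fun K _ v => C (t K v)) := by
  refine ⟨⟨0, fun K _ v => by simp⟩, fun r => ?_⟩
  by_cases hr : r = 0
  · simpa [coeff_C, hr] using ht
  · simpa [coeff_C, hr] using IsPolyFun.zero

lemma zero : IsUPoly.{u} (α := α) (fun _ _ _ => 0) :=
  ⟨⟨0, fun K _ v => by simp⟩, fun r => by simpa using IsPolyFun.zero⟩

lemma one : IsUPoly.{u} (α := α) (fun _ _ _ => 1) := by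
  simpa using c IsPolyFun.one

lemma x : IsUPoly.{u} (α := α) (fun _ _ _ => X) := by
  refine ⟨⟨1, fun K _ v => by simp⟩, fun r => ?_⟩
  by_cases hr : r = 1
  · simpa [coeff_X, hr] using IsPolyFun.one
  · simpa [coeff_X, Ne.symm hr] using IsPolyFun.zero

lemma add (hf : IsUPoly f) (hg : IsUPoly g) : IsUPoly (fun K _ v => f K v + g K v) := by
  obtain ⟨⟨N, hN⟩, hf⟩ := hf
  obtain ⟨⟨M, hM⟩, hg⟩ := hg
  refine ⟨⟨max N M, fun K _ v => (natDegree_add_le _ _).trans (max_le_max (hN K v) (hM K v))⟩,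
    fun r => ?_⟩
  simpa using (hf r).add (hg r)

lemma neg (hf : IsUPoly f) : IsUPoly (fun K _ v => - f K v) := by
  obtain ⟨⟨N, hN⟩, hf⟩ := hf
  refine ⟨⟨N, fun K _ v => by simpa using hN K v⟩, fun r => ?_⟩
  simpa using (hf r).neg

lemma sub (hf : IsUPoly f) (hg : IsUPoly g) : IsUPoly (fun K _ v => f K v - g K v) := by
  simpa [sub_eq_add_neg] using hf.add hg.neg

lemma mul (hf : IsUPoly f) (hg : IsUPoly g) : IsUPoly (fun K _ v => f K v * g K v) := by
  obtain ⟨⟨N, hN⟩, hf⟩ := hf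
  obtain ⟨⟨M, hM⟩, hg⟩ := hg
  refine ⟨⟨N + M, fun K _ v => natDegree_mul_le.trans (add_le_add (hN K v) (hM K v))⟩,
    fun r => ?_⟩
  simp only [coeff_mul]
  exact IsPolyFun.sum _ (t := fun (x : ℕ × ℕ) K _ v => (f K v).coeff x.1 * (g K v).coeff x.2)
    fun x _ => (hf x.1).mul (hg x.2)

lemma pow (hf : IsUPoly f) (n : ℕ) : IsUPoly (fun K _ v => f K v ^ n) := by
  induction n with
  | zero => simpa using one
  | succ n ih => simpa [pow_succ] using ih.mul hf

lemma sum {ι : Type*} (I : Finset ι) {f : ι → ∀ (K : Type u) [Field K], (α → K) → K[X]}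
    (hf : ∀ i ∈ I, IsUPoly (f i)) : IsUPoly (fun K _ v => ∑ i ∈ I, f i K v) := by
  classical
  induction I using Finset.induction_on with
  | empty => simpa using zero
  | insert a I ha ih =>
    simp only [Finset.sum_insert ha]
    exact (hf a (Finset.mem_insert_self a I)).add
      (ih fun i hi => hf i (Finset.mem_insert_of_mem hi))

lemma comp (hf : IsUPoly f) (h : α → β) : IsUPoly (fun K _ (v : β → K) => f K (fun a => v (h a))) := by
  obtain ⟨⟨N, hN⟩, hf⟩ := hf
  exact ⟨⟨N, fun K _ v => hN K _⟩, fun r => (hf r).comp' h⟩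

lemma eval (hf : IsUPoly f) {t : ∀ (K : Type u) [Field K], (α → K) → K} (ht : IsPolyFun t) :
    IsPolyFun (fun K _ v => (f K v).eval (t K v)) := by
  obtain ⟨⟨N, hN⟩, hf⟩ := hf
  have h1 : ∀ (K : Type u) [Field K] (v : α → K), (f K v).eval (t K v) =
      ∑ i ∈ Finset.range (N + 1), (f K v).coeff i * (t K v) ^ i := fun K _ v =>
    eval_eq_sum_range' (Nat.lt_succ_of_le (hN K v)) _
  simp only [h1]
  exact IsPolyFun.sum _ (t := fun i K _ v => (f K v).coeff i * (t K v) ^ i)
    fun i _ => (hf i).mul (ht.pow i)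

/-- The polynomial with given coefficients. -/
lemma ofCoeffs (R : ℕ) {w : Fin R → ∀ (K : Type u) [Field K], (α → K) → K}
    (hw : ∀ r, IsPolyFun (w r)) :
    IsUPoly (fun K _ v => ∑ r : Fin R, C (w r K v) * X ^ (r : ℕ)) :=
  sum _ (f := fun r K _ v => C (w r K v) * X ^ (r : ℕ)) fun r _ => (c (hw r)).mul (x.pow _)

/-- A statement about all coefficients. -/
lemma forall_coeff (hf : IsUPoly f) (S : ℕ → Prop) :
    IsFO (fun K _ v => ∀ r, S r → (f K v).coeff r = 0) := by
  obtain ⟨⟨N, hN⟩, hf⟩ := hf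
  have h1 : IsFO (fun K _ v => ∀ r : Fin (N + 1), S r → (f K v).coeff r = 0) :=
    IsFO.forall_finite (P := fun (r : Fin (N + 1)) K _ v => S r → (f K v).coeff r = 0)
      fun r => (IsFO.const (S r)).imp (IsFO.eq (hf r) IsPolyFun.zero)
  refine h1.congr fun K _ v => ⟨fun h r => h r, fun h r hr => ?_⟩
  by_cases hr' : r < N + 1
  · exact h ⟨r, hr'⟩ hr
  · exact coeff_eq_zero_of_natDegree_lt ((hN K v).trans_lt (by omega))

lemma exists_coeff (hf : IsUPoly f) (S : ℕ → Prop) :
    IsFO (fun K _ v => ∃ r, S r ∧ (f K v).coeff r ≠ 0) := by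
  refine (hf.forall_coeff S).not.congr fun K _ v => ?_
  push Not
  rfl

lemma eq (hf : IsUPoly f) (hg : IsUPoly g) : IsFO (fun K _ v => f K v = g K v) := by
  refine ((hf.sub hg).forall_coeff (fun _ => True)).congr fun K _ v => ?_
  rw [← sub_eq_zero]
  constructor
  · intro h r _
    rw [h, coeff_zero]
  · intro h
    ext r
    rw [h r trivial, coeff_zero]

end IsUPoly

end Fermat.Agent.FO
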